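import Mathlib

/-!
# S53, gauge lemmas (pure `2 × 2` matrix algebra over a local ring)

* `rigid_unique` (K2): two matrix representations which are conjugate, both in "companion
  gauge" at `g₁` (first column `(0,1)ᵀ`) and with the same prescribed `(i,j)` entry at `g₂`,
  are equal, provided the `(i,j)` entry of the commutator `[r g₁, r g₂]` is a unit.
* `exists_rigid_conj_matrix` / `exists_rigid_conj` (K1): over a Henselian local ring every
  pair of matrices `(a, b)` with `a` residually in companion gauge and the `(i,j)` entry of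
  `[a, b]` a unit can be conjugated (by a matrix `≡ 1`) into rigid form.
-/

set_option autoImplicit false

namespace Fermat.Agent.S53.H37

open IsLocalRing Matrix

section Unique

variable {G : Type*} [Monoid G] {A : Type*} [CommRing A]

/-- A `2 × 2` matrix intertwining two companion-gauge matrices is `x + y • a'`. -/
theorem eq_smul_one_add_smul_of_intertwine (N a a' : Matrix (Fin 2) (Fin 2) A)
    (hN : N * a = a' * N) (h00 : a 0 0 = 0) (h10 : a 1 0 = 1)
    (h00' : a' 0 0 = 0) (h10' : a' 1 0 = 1) :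
    N = N 0 0 • (1 : Matrix (Fin 2) (Fin 2) A) + N 1 0 • a' := by
  have e00 := congrFun (congrFun hN 0) 0
  have e10 := congrFun (congrFun hN 1) 0
  simp only [Matrix.mul_apply, Fin.sum_univ_two, h00, h10, h00', h10', mul_zero, mul_one,
    zero_add, zero_mul, one_mul] at e00 e10
  ext k l
  fin_cases k <;> fin_cases l <;>
    simp [Matrix.add_apply, Matrix.smul_apply, h00', h10', e00, e10, mul_comm]

/-- **K2, gauge uniqueness.** Two conjugate matrix representations in rigid form are equal. -/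
theorem rigid_unique [IsLocalRing A] (r r' : G →* Matrix (Fin 2) (Fin 2) A) (g₁ g₂ : G)
    (i j : Fin 2) (N : (Matrix (Fin 2) (Fin 2) A)ˣ)
    (hN : ∀ σ, (N : Matrix (Fin 2) (Fin 2) A) * r σ = r' σ * N)
    (h00 : r g₁ 0 0 = 0) (h10 : r g₁ 1 0 = 1) (h00' : r' g₁ 0 0 = 0) (h10' : r' g₁ 1 0 = 1)
    (hij : r g₂ i j = r' g₂ i j) (hres : ∀ k l, r g₂ k l - r' g₂ k l ∈ maximalIdeal A)
    (hu : IsUnit ((r g₁ * r g₂ - r g₂ * r g₁) i j)) : r = r' := by
  set x := (N : Matrix (Fin 2) (Fin 2) A) 0 0 with hx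
  set y := (N : Matrix (Fin 2) (Fin 2) A) 1 0 with hy
  have hNeq : (N : Matrix (Fin 2) (Fin 2) A) = x • 1 + y • r' g₁ :=
    eq_smul_one_add_smul_of_intertwine _ _ _ (hN g₁) h00 h10 h00' h10'
  -- `N` commutes with `r' g₁`, hence `r g₁ = r' g₁`
  have hcomm : (N : Matrix (Fin 2) (Fin 2) A) * r' g₁ = r' g₁ * N := by
    rw [hNeq]
    simp [mul_add, add_mul]
  have ha : r g₁ = r' g₁ := by
    have h1 : (N : Matrix (Fin 2) (Fin 2) A) * r g₁ = N * r' g₁ := by rw [hN g₁, hcomm]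
    exact N.isUnit.mul_left_cancel h1
  -- the `(i,j)` entry of `N * r g₂ = r' g₂ * N`
  have hb := hN g₂
  rw [hNeq, ← ha] at hb
  have hb' : x • (r g₂ - r' g₂) = y • (r' g₂ * r g₁ - r g₁ * r g₂) := by
    have h2 : x • r g₂ + y • (r g₁ * r g₂) = x • r' g₂ + y • (r' g₂ * r g₁) := by
      simpa [mul_add, add_mul] using hb
    rw [smul_sub, smul_sub, sub_eq_sub_iff_add_eq_add]
    rw [add_comm (x • r' g₂)] at h2
    rw [← h2]
  have hent := congrFun (congrFun hb' i) j
  simp only [Matrix.smul_apply, Matrix.sub_apply, hij, sub_self, smul_eq_mul, mul_zero] at hent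
  -- the coefficient of `y` is a unit
  have hunit : IsUnit ((r' g₂ * r g₁) i j - (r g₁ * r g₂) i j) := by
    have hdiff : (r' g₂ * r g₁) i j - (r g₁ * r g₂) i j
        = -((r g₁ * r g₂ - r g₂ * r g₁) i j) + ((r' g₂ - r g₂) * r g₁) i j := by
      simp only [Matrix.sub_apply, Matrix.sub_mul]
      ring
    rw [hdiff]
    have hm : ((r' g₂ - r g₂) * r g₁) i j ∈ maximalIdeal A := by
      rw [Matrix.mul_apply]
      refine Ideal.sum_mem _ fun k _ => Ideal.mul_mem_right _ _ ?_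
      rw [Matrix.sub_apply]
      have := hres i k
      rwa [← neg_sub, neg_mem_iff]
    by_contra hnu
    have h3 : -((r g₁ * r g₂ - r g₂ * r g₁) i j) ∈ maximalIdeal A := by
      have := (maximalIdeal A).sub_mem ((mem_maximalIdeal _).mpr hnu) hm
      simpa using this
    rw [neg_mem_iff] at h3
    exact (mem_maximalIdeal _).mp h3 hu
  have hy0 : y = 0 := by
    have h6 : ((r' g₂ * r g₁) i j - (r g₁ * r g₂) i j) * y = 0 := by
      rw [mul_comm]; exact hent.symm
    exact (hunit.mul_right_eq_zero).mp h6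
  -- hence `N` is a scalar
  have hNx : (N : Matrix (Fin 2) (Fin 2) A) = x • 1 := by rw [hNeq, hy0, zero_smul, add_zero]
  ext σ : 1
  have h4 := hN σ
  have h5 : (N : Matrix (Fin 2) (Fin 2) A) * r σ = N * r' σ := by
    rw [h4, hNx]; simp
  exact N.isUnit.mul_left_cancel h5

end Unique

section Quadratic

variable {A : Type*} [CommRing A] [IsLocalRing A]

/-- In a local ring, `unit + nonunit` is a unit. -/
theorem isUnit_add_of_mem_maximalIdeal {u x : A} (hu : IsUnit u) (hx : x ∈ maximalIdeal A) :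
    IsUnit (u + x) := by
  by_contra h
  have h1 : u + x ∈ maximalIdeal A := (mem_maximalIdeal _).mpr h
  have h2 : u ∈ maximalIdeal A := by
    have := (maximalIdeal A).sub_mem h1 hx
    simpa using this
  exact (mem_maximalIdeal _).mp h2 hu

/-- Hensel for a quadratic `F₀ + F₁ t + F₂ t²` with `F₀ ∈ 𝔪`, `F₁` a unit: a root in `𝔪`. -/
theorem exists_root_quadratic [HenselianRing A (maximalIdeal A)] (F₀ F₁ F₂ : A)
    (h0 : F₀ ∈ maximalIdeal A) (h1 : IsUnit F₁) :
    ∃ t ∈ maximalIdeal A, F₀ + F₁ * t + F₂ * t ^ 2 = 0 := by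
  open Polynomial in
  obtain ⟨w, hw, hw'⟩ := HenselianRing.is_henselian (R := A) (I := maximalIdeal A)
    (X ^ 2 + C F₁ * X + C (F₀ * F₂)) (by monicity!) (-F₁)
    (by
      have : (X ^ 2 + C F₁ * X + C (F₀ * F₂) : A[X]).eval (-F₁) = F₀ * F₂ := by
        simp; ring
      rw [this]
      exact Ideal.mul_mem_right _ _ h0)
    (by
      have : (derivative (X ^ 2 + C F₁ * X + C (F₀ * F₂) : A[X])).eval (-F₁) = -F₁ := by
        simp; ring
      rw [this]
      exact (h1.neg).map _)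
  have hwu : IsUnit w := by
    have : w = -F₁ + (w - -F₁) := by ring
    rw [this]
    exact isUnit_add_of_mem_maximalIdeal h1.neg hw'
  obtain ⟨v, hv⟩ := hwu.exists_right_inv
  have hroot : w ^ 2 + F₁ * w + F₀ * F₂ = 0 := by
    have := hw
    simpa [Polynomial.IsRoot] using this
  refine ⟨F₀ * v, Ideal.mul_mem_right _ _ h0, ?_⟩
  have : F₀ + F₁ * (F₀ * v) + F₂ * (F₀ * v) ^ 2
      = F₀ * v ^ 2 * (w ^ 2 + F₁ * w + F₀ * F₂) + F₀ * (1 - (w * v) ^ 2)
        + F₁ * F₀ * v * (1 - w * v) := by ring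
  rw [this, hroot, hv]; ring

end Quadratic

section Identities

variable {A : Type*} [CommRing A]

/-- The quadratic identity behind the gauge-fixing equation. -/
theorem adjugate_conj_entry (a b : Matrix (Fin 2) (Fin 2) A) (i j : Fin 2) (β t : A) :
    (adjugate (1 + t • a) * b * (1 + t • a) : Matrix (Fin 2) (Fin 2) A) i j
        - β * det (1 + t • a)
      = (b i j - β) + ((adjugate a * b + b * a : Matrix (Fin 2) (Fin 2) A) i j - β * trace a) * t
        + ((adjugate a * b * a : Matrix (Fin 2) (Fin 2) A) i j - β * det a) * t ^ 2 := by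
  rw [Matrix.eta_fin_two a, Matrix.eta_fin_two b]
  generalize a 0 0 = a00
  generalize a 0 1 = a01
  generalize a 1 0 = a10
  generalize a 1 1 = a11
  generalize b 0 0 = b00
  generalize b 0 1 = b01
  generalize b 1 0 = b10
  generalize b 1 1 = b11
  fin_cases i <;> fin_cases j <;>
    simp [Matrix.one_fin_two, Matrix.adjugate_fin_two_of, Matrix.det_fin_two_of,
      Matrix.trace_fin_two_of, Matrix.smul_of, Matrix.of_add_of] <;> ring

theorem adjugate_mul_add_mul_entry (a b : Matrix (Fin 2) (Fin 2) A) (i j : Fin 2) (β : A) :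
    (adjugate a * b + b * a : Matrix (Fin 2) (Fin 2) A) i j - β * trace a
      = trace a * (b i j - β) - (a * b - b * a : Matrix (Fin 2) (Fin 2) A) i j := by
  rw [Matrix.eta_fin_two a, Matrix.eta_fin_two b]
  generalize a 0 0 = a00
  generalize a 0 1 = a01
  generalize a 1 0 = a10
  generalize a 1 1 = a11
  generalize b 0 0 = b00
  generalize b 0 1 = b01
  generalize b 1 0 = b10
  generalize b 1 1 = b11
  fin_cases i <;> fin_cases j <;>
    simp [Matrix.adjugate_fin_two_of, Matrix.trace_fin_two_of] <;> ring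

/-- The matrix `[e₁ | a e₁]`. -/
def colMat (a : Matrix (Fin 2) (Fin 2) A) : Matrix (Fin 2) (Fin 2) A :=
  !![1, a 0 0; 0, a 1 0]

theorem det_colMat (a : Matrix (Fin 2) (Fin 2) A) : det (colMat a) = a 1 0 := by
  simp [colMat, Matrix.det_fin_two_of]

/-- Conjugation of a matrix by a unit: `N⁻¹ X N`. -/
def conjBy (N : (Matrix (Fin 2) (Fin 2) A)ˣ) (X : Matrix (Fin 2) (Fin 2) A) :
    Matrix (Fin 2) (Fin 2) A :=
  ((N⁻¹ : (Matrix (Fin 2) (Fin 2) A)ˣ) : Matrix (Fin 2) (Fin 2) A) * X *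
    (N : Matrix (Fin 2) (Fin 2) A)

theorem conjBy_def (N : (Matrix (Fin 2) (Fin 2) A)ˣ) (X : Matrix (Fin 2) (Fin 2) A) :
    conjBy N X = ((N⁻¹ : (Matrix (Fin 2) (Fin 2) A)ˣ) : Matrix (Fin 2) (Fin 2) A) * X *
      (N : Matrix (Fin 2) (Fin 2) A) := rfl

@[simp]
theorem conjBy_one (N : (Matrix (Fin 2) (Fin 2) A)ˣ) : conjBy N 1 = 1 := by
  simp [conjBy]

theorem conjBy_mul (N : (Matrix (Fin 2) (Fin 2) A)ˣ) (X Y : Matrix (Fin 2) (Fin 2) A) :
    conjBy N (X * Y) = conjBy N X * conjBy N Y := by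
  simp only [conjBy, mul_assoc, Units.mul_inv_cancel_left]

theorem conjBy_sub (N : (Matrix (Fin 2) (Fin 2) A)ˣ) (X Y : Matrix (Fin 2) (Fin 2) A) :
    conjBy N (X - Y) = conjBy N X - conjBy N Y := by
  simp only [conjBy, mul_sub, sub_mul]

theorem conjBy_conjBy (N M : (Matrix (Fin 2) (Fin 2) A)ˣ) (X : Matrix (Fin 2) (Fin 2) A) :
    conjBy M (conjBy N X) = conjBy (N * M) X := by
  simp only [conjBy, _root_.mul_inv_rev, Units.val_mul, mul_assoc]

theorem mul_conjBy (N : (Matrix (Fin 2) (Fin 2) A)ˣ) (X : Matrix (Fin 2) (Fin 2) A) :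
    (N : Matrix (Fin 2) (Fin 2) A) * conjBy N X = X * N := by
  simp only [conjBy, ← mul_assoc, Units.mul_inv, one_mul]

/-- Conjugating by `[e₁ | a e₁]` puts `a` in companion form. -/
theorem conjBy_colMat_col (a : Matrix (Fin 2) (Fin 2) A) (N : (Matrix (Fin 2) (Fin 2) A)ˣ)
    (hN : (N : Matrix (Fin 2) (Fin 2) A) = colMat a) (k : Fin 2) :
    conjBy N a k 0 = (1 : Matrix (Fin 2) (Fin 2) A) k 1 := by
  have key : ∀ l, (a * (N : Matrix (Fin 2) (Fin 2) A)) l 0
      = (N : Matrix (Fin 2) (Fin 2) A) l 1 := by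
    intro l
    rw [hN]
    fin_cases l <;> simp [colMat, Matrix.mul_apply, Fin.sum_univ_two]
  have h1 : conjBy N a k 0
      = (((N⁻¹ : (Matrix (Fin 2) (Fin 2) A)ˣ) : Matrix (Fin 2) (Fin 2) A) *
          (N : Matrix (Fin 2) (Fin 2) A)) k 1 := by
    rw [conjBy, mul_assoc, Matrix.mul_apply, Matrix.mul_apply]
    exact Finset.sum_congr rfl fun l _ => by rw [key l]
  rw [h1, Units.inv_mul]

end Identities

section Existence

variable {A : Type*} [CommRing A] [IsLocalRing A]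

/-- Entrywise reduction of `2 × 2` matrices to the residue field. -/
noncomputable abbrev red :
    Matrix (Fin 2) (Fin 2) A →+* Matrix (Fin 2) (Fin 2) (ResidueField A) :=
  (residue A).mapMatrix

theorem red_inv_of_red_eq_one (N : (Matrix (Fin 2) (Fin 2) A)ˣ)
    (hN : red (N : Matrix (Fin 2) (Fin 2) A) = 1) :
    red (((N⁻¹ : (Matrix (Fin 2) (Fin 2) A)ˣ) : Matrix (Fin 2) (Fin 2) A)) = 1 := by
  have h : red (((N⁻¹ : (Matrix (Fin 2) (Fin 2) A)ˣ) : Matrix (Fin 2) (Fin 2) A)) *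
      red (N : Matrix (Fin 2) (Fin 2) A) = 1 := by
    rw [← map_mul, Units.inv_mul, map_one]
  rwa [hN, mul_one] at h

theorem red_conjBy (N : (Matrix (Fin 2) (Fin 2) A)ˣ)
    (hN : red (N : Matrix (Fin 2) (Fin 2) A) = 1) (X : Matrix (Fin 2) (Fin 2) A) :
    red (conjBy N X) = red X := by
  rw [conjBy, map_mul, map_mul, hN, red_inv_of_red_eq_one N hN, one_mul, mul_one]

theorem isUnit_entry_iff (X : Matrix (Fin 2) (Fin 2) A) (i j : Fin 2) :
    IsUnit (X i j) ↔ red X i j ≠ 0 := by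
  rw [RingHom.mapMatrix_apply, Matrix.map_apply, residue_ne_zero_iff_isUnit]

theorem entry_sub_mem_iff (X : Matrix (Fin 2) (Fin 2) A) (i j : Fin 2) (β : A) :
    X i j - β ∈ maximalIdeal A ↔ red X i j = residue A β := by
  rw [RingHom.mapMatrix_apply, Matrix.map_apply, ← sub_eq_zero, ← map_sub, residue_eq_zero_iff]

theorem red_eq_one_iff (N : Matrix (Fin 2) (Fin 2) A) :
    red N = 1 ↔ ∀ k l, N k l - (1 : Matrix (Fin 2) (Fin 2) A) k l ∈ maximalIdeal A := by
  constructor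
  · intro h k l
    rw [entry_sub_mem_iff, h]
    by_cases hkl : k = l
    · subst hkl; simp
    · simp [hkl]
  · intro h
    ext k l
    have := (entry_sub_mem_iff N k l _).mp (h k l)
    rw [this]
    by_cases hkl : k = l
    · subst hkl; simp
    · simp [hkl]

/-- **K1, matrix form.** Over a Henselian local ring, a pair of matrices `(a, b)` such that
`a` is residually in companion form and the `(i,j)` entry of `[a, b]` is a unit can be
conjugated by a matrix `N ≡ 1` so that `a` is in companion form and `b i j = β`, for any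
prescribed `β ≡ b i j`. -/
theorem exists_rigid_conj_matrix [HenselianRing A (maximalIdeal A)]
    (a b : Matrix (Fin 2) (Fin 2) A) (i j : Fin 2) (β : A)
    (h00 : a 0 0 ∈ maximalIdeal A) (h10 : a 1 0 - 1 ∈ maximalIdeal A)
    (hβ : b i j - β ∈ maximalIdeal A) (hu : IsUnit ((a * b - b * a) i j)) :
    ∃ N : (Matrix (Fin 2) (Fin 2) A)ˣ, red (N : Matrix (Fin 2) (Fin 2) A) = 1 ∧
      conjBy N a 0 0 = 0 ∧ conjBy N a 1 0 = 1 ∧ conjBy N b i j = β := by
  -- Step 1: conjugate by `N₀ = [e₁ | a e₁]`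
  have ha10 : IsUnit (a 1 0) := by
    have : a 1 0 = 1 + (a 1 0 - 1) := by ring
    rw [this]
    exact isUnit_add_of_mem_maximalIdeal isUnit_one h10
  have hN₀u : IsUnit (colMat a) := by
    rw [Matrix.isUnit_iff_isUnit_det, det_colMat]; exact ha10
  obtain ⟨N₀, hN₀⟩ := hN₀u
  have hredN₀ : red (N₀ : Matrix (Fin 2) (Fin 2) A) = 1 := by
    rw [hN₀]
    ext k l
    have e1 : residue A (a 0 0) = 0 := (residue_eq_zero_iff _).mpr h00
    have e2 : residue A (a 1 0) = 1 := by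
      have := (residue_eq_zero_iff _).mpr h10
      rwa [map_sub, map_one, sub_eq_zero] at this
    fin_cases k <;> fin_cases l <;> simp [colMat, e1, e2]
  set a₁ : Matrix (Fin 2) (Fin 2) A := conjBy N₀ a with ha₁
  set b₁ : Matrix (Fin 2) (Fin 2) A := conjBy N₀ b with hb₁
  have ha₁00 : a₁ 0 0 = 0 := by
    rw [ha₁, conjBy_colMat_col a N₀ hN₀ 0]; simp
  have ha₁10 : a₁ 1 0 = 1 := by
    rw [ha₁, conjBy_colMat_col a N₀ hN₀ 1]; simp
  have hcomm₁ : a₁ * b₁ - b₁ * a₁ = conjBy N₀ (a * b - b * a) := by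
    rw [ha₁, hb₁, conjBy_sub, conjBy_mul, conjBy_mul]
  have hu₁ : IsUnit ((a₁ * b₁ - b₁ * a₁) i j) := by
    rw [isUnit_entry_iff, hcomm₁, red_conjBy N₀ hredN₀, ← isUnit_entry_iff]; exact hu
  have hβ₁ : b₁ i j - β ∈ maximalIdeal A := by
    rw [entry_sub_mem_iff, hb₁, red_conjBy N₀ hredN₀, ← entry_sub_mem_iff]; exact hβ
  -- Step 2: solve the quadratic
  set F₀ := b₁ i j - β with hF₀
  set F₁ := (adjugate a₁ * b₁ + b₁ * a₁ : Matrix (Fin 2) (Fin 2) A) i j - β * trace a₁ with hF₁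
  set F₂ := (adjugate a₁ * b₁ * a₁ : Matrix (Fin 2) (Fin 2) A) i j - β * det a₁ with hF₂
  have hF₁u : IsUnit F₁ := by
    have h1 : F₁ = -((a₁ * b₁ - b₁ * a₁) i j) + trace a₁ * F₀ := by
      rw [hF₁, adjugate_mul_add_mul_entry]; ring
    rw [h1]
    exact isUnit_add_of_mem_maximalIdeal hu₁.neg (Ideal.mul_mem_left _ _ hβ₁)
  obtain ⟨t, ht, hroot⟩ := exists_root_quadratic F₀ F₁ F₂ hβ₁ hF₁u
  -- Step 3: conjugate by `M = 1 + t • a₁`
  set M : Matrix (Fin 2) (Fin 2) A := 1 + t • a₁ with hM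
  have hredM : red M = 1 := by
    rw [hM, map_add, map_one]
    have : red (t • a₁) = 0 := by
      ext k l
      simp [(residue_eq_zero_iff t).mpr ht]
    rw [this, add_zero]
  have hdetM : IsUnit (det M) := by
    rw [← residue_ne_zero_iff_isUnit, RingHom.map_det]
    change det (red M) ≠ 0
    rw [hredM, det_one]; exact one_ne_zero
  have hMu : IsUnit M := (Matrix.isUnit_iff_isUnit_det M).mpr hdetM
  obtain ⟨M₁, hM₁⟩ := hMu
  have hMa : M * a₁ = a₁ * M := by
    rw [hM]; simp [mul_add, add_mul]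
  have hconj_a : conjBy M₁ a₁ = a₁ := by
    rw [conjBy, hM₁, mul_assoc, ← hMa, ← hM₁, Units.inv_mul_cancel_left]
  have hinv : ((M₁⁻¹ : (Matrix (Fin 2) (Fin 2) A)ˣ) : Matrix (Fin 2) (Fin 2) A)
      = Ring.inverse (det M) • adjugate M := by
    rw [Matrix.coe_units_inv, hM₁, Matrix.inv_def]
  have hconj_b : conjBy M₁ b₁ i j = β := by
    rw [conjBy, hinv, hM₁, Matrix.smul_mul, Matrix.smul_mul, Matrix.smul_apply, smul_eq_mul]
    have h2 : (adjugate M * b₁ * M : Matrix (Fin 2) (Fin 2) A) i j = β * det M := by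
      have := adjugate_conj_entry a₁ b₁ i j β t
      rw [← hM, ← hF₀, ← hF₁, ← hF₂, hroot, sub_eq_zero] at this
      exact this
    rw [h2, mul_comm β, ← mul_assoc, Ring.inverse_mul_cancel _ hdetM, one_mul]
  -- Step 4: assemble
  refine ⟨N₀ * M₁, ?_, ?_, ?_, ?_⟩
  · rw [Units.val_mul, map_mul, hredN₀, hM₁, hredM, one_mul]
  · rw [← conjBy_conjBy, ← ha₁, hconj_a, ha₁00]
  · rw [← conjBy_conjBy, ← ha₁, hconj_a, ha₁10]
  · rw [← conjBy_conjBy, ← hb₁, hconj_b]

end Existence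

section Representations

variable {G : Type*} [Monoid G] {A : Type*} [CommRing A]

/-- The conjugate `σ ↦ N⁻¹ (r σ) N` of a matrix representation. -/
def conjRep (N : (Matrix (Fin 2) (Fin 2) A)ˣ) (r : G →* Matrix (Fin 2) (Fin 2) A) :
    G →* Matrix (Fin 2) (Fin 2) A where
  toFun σ := conjBy N (r σ)
  map_one' := by rw [map_one, conjBy_one]
  map_mul' σ τ := by rw [map_mul, conjBy_mul]

@[simp]
theorem conjRep_apply (N : (Matrix (Fin 2) (Fin 2) A)ˣ) (r : G →* Matrix (Fin 2) (Fin 2) A)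
    (σ : G) : conjRep N r σ = conjBy N (r σ) := rfl

theorem mul_conjRep (N : (Matrix (Fin 2) (Fin 2) A)ˣ) (r : G →* Matrix (Fin 2) (Fin 2) A)
    (σ : G) : (N : Matrix (Fin 2) (Fin 2) A) * conjRep N r σ = r σ * N :=
  mul_conjBy N (r σ)

/-- Entries of `N⁻¹ X N` lie in an ideal `I` as soon as the entries of `X` do. -/
theorem conjBy_entry_mem (I : Ideal A) (N : (Matrix (Fin 2) (Fin 2) A)ˣ)
    (X : Matrix (Fin 2) (Fin 2) A) (hX : ∀ k l, X k l ∈ I) (k l : Fin 2) :
    conjBy N X k l ∈ I := by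
  rw [conjBy, Matrix.mul_apply]
  refine Ideal.sum_mem _ fun m _ => Ideal.mul_mem_right _ _ ?_
  rw [Matrix.mul_apply]
  exact Ideal.sum_mem _ fun n _ => Ideal.mul_mem_left _ _ (hX n m)

theorem conjRep_sub_one_entry_mem (I : Ideal A) (N : (Matrix (Fin 2) (Fin 2) A)ˣ)
    (r : G →* Matrix (Fin 2) (Fin 2) A) (σ : G) (h : ∀ k l, (r σ - 1) k l ∈ I) (k l : Fin 2) :
    (conjRep N r σ - 1) k l ∈ I := by
  have : conjRep N r σ - 1 = conjBy N (r σ - 1) := by
    rw [conjRep_apply, conjBy_sub, conjBy_one]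
  rw [this]
  exact conjBy_entry_mem I N _ h k l

variable [IsLocalRing A]

/-- **K1 for representations.** Over a Henselian local ring (e.g. a complete local ring) a
matrix representation `r` which is residually in companion gauge at `g₁` and such that the
`(i,j)` entry of `[r g₁, r g₂]` is a unit is conjugate, by a matrix `N ≡ 1`, to a
representation `r'` in rigid form: `r' g₁` has first column `(0,1)ᵀ` and `r' g₂ i j = β`. -/
theorem exists_rigid_conj [HenselianRing A (maximalIdeal A)]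
    (r : G →* Matrix (Fin 2) (Fin 2) A) (g₁ g₂ : G) (i j : Fin 2) (β : A)
    (h00 : r g₁ 0 0 ∈ maximalIdeal A) (h10 : r g₁ 1 0 - 1 ∈ maximalIdeal A)
    (hβ : r g₂ i j - β ∈ maximalIdeal A)
    (hu : IsUnit ((r g₁ * r g₂ - r g₂ * r g₁) i j)) :
    ∃ N : (Matrix (Fin 2) (Fin 2) A)ˣ, red (N : Matrix (Fin 2) (Fin 2) A) = 1 ∧
      (∀ σ, red (conjRep N r σ) = red (r σ)) ∧
      conjRep N r g₁ 0 0 = 0 ∧ conjRep N r g₁ 1 0 = 1 ∧ conjRep N r g₂ i j = β := by
  obtain ⟨N, hN, h1, h2, h3⟩ := exists_rigid_conj_matrix (r g₁) (r g₂) i j β h00 h10 hβ hu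
  exact ⟨N, hN, fun σ => red_conjBy N hN (r σ), h1, h2, h3⟩

/-- The commutator entry of a lift is a unit if it is nonzero residually. -/
theorem isUnit_comm_entry_of_residual {k : Type*} [Field k] (ψ : k →+* ResidueField A)
    (rbar : G →* Matrix (Fin 2) (Fin 2) k) (g₁ g₂ : G) (i j : Fin 2)
    (hc : (rbar g₁ * rbar g₂ - rbar g₂ * rbar g₁) i j ≠ 0)
    (r : G →* Matrix (Fin 2) (Fin 2) A)
    (hred : ∀ σ k l, residue A (r σ k l) = ψ (rbar σ k l)) :
    IsUnit ((r g₁ * r g₂ - r g₂ * r g₁) i j) := by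
  have hredm : ∀ σ, red (r σ) = ψ.mapMatrix (rbar σ) := by
    intro σ
    ext k l
    exact hred σ k l
  have h : red (r g₁ * r g₂ - r g₂ * r g₁)
      = ψ.mapMatrix (rbar g₁ * rbar g₂ - rbar g₂ * rbar g₁) := by
    simp only [map_sub, map_mul, hredm]
  rw [isUnit_entry_iff, h, RingHom.mapMatrix_apply, Matrix.map_apply]
  exact (map_ne_zero ψ).mpr hc

/-- **K1, residual form.** Same as `exists_rigid_conj`, with the hypotheses expressed through
a residual representation `rbar` (over a field `k` mapping to the residue field of `A`) which is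
in companion gauge at `g₁` with `[rbar g₁, rbar g₂] i j ≠ 0`. -/
theorem exists_rigid_conj_of_residual [HenselianRing A (maximalIdeal A)]
    {k : Type*} [Field k] (ψ : k →+* ResidueField A)
    (rbar : G →* Matrix (Fin 2) (Fin 2) k) (g₁ g₂ : G) (i j : Fin 2)
    (h00 : rbar g₁ 0 0 = 0) (h10 : rbar g₁ 1 0 = 1)
    (hc : (rbar g₁ * rbar g₂ - rbar g₂ * rbar g₁) i j ≠ 0)
    (β : A) (hβ : residue A β = ψ (rbar g₂ i j))
    (r : G →* Matrix (Fin 2) (Fin 2) A)
    (hred : ∀ σ k l, residue A (r σ k l) = ψ (rbar σ k l)) :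
    ∃ N : (Matrix (Fin 2) (Fin 2) A)ˣ,
      (∀ k l, (N : Matrix (Fin 2) (Fin 2) A) k l - (1 : Matrix (Fin 2) (Fin 2) A) k l
        ∈ maximalIdeal A) ∧
      (∀ σ k l, residue A (conjRep N r σ k l) = ψ (rbar σ k l)) ∧
      conjRep N r g₁ 0 0 = 0 ∧ conjRep N r g₁ 1 0 = 1 ∧ conjRep N r g₂ i j = β := by
  have h00' : r g₁ 0 0 ∈ maximalIdeal A := by
    rw [← residue_eq_zero_iff, hred, h00, map_zero]
  have h10' : r g₁ 1 0 - 1 ∈ maximalIdeal A := by
    rw [← residue_eq_zero_iff, map_sub, hred, h10, map_one, map_one, sub_self]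
  have hβ' : r g₂ i j - β ∈ maximalIdeal A := by
    rw [← residue_eq_zero_iff, map_sub, hred, hβ, sub_self]
  have hu : IsUnit ((r g₁ * r g₂ - r g₂ * r g₁) i j) :=
    isUnit_comm_entry_of_residual ψ rbar g₁ g₂ i j hc r hred
  obtain ⟨N, hN, hr', h1, h2, h3⟩ := exists_rigid_conj r g₁ g₂ i j β h00' h10' hβ' hu
  refine ⟨N, (red_eq_one_iff _).mp hN, fun σ k l => ?_, h1, h2, h3⟩
  have := congrFun (congrFun (hr' σ) k) l
  rw [RingHom.mapMatrix_apply, Matrix.map_apply, RingHom.mapMatrix_apply, Matrix.map_apply]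
    at this
  rw [this, hred]

/-- **K2, residual form.** Two conjugate lifts of `rbar` in rigid form are equal. -/
theorem rigid_unique_of_residual {k : Type*} [Field k] (ψ : k →+* ResidueField A)
    (rbar : G →* Matrix (Fin 2) (Fin 2) k) (g₁ g₂ : G) (i j : Fin 2)
    (hc : (rbar g₁ * rbar g₂ - rbar g₂ * rbar g₁) i j ≠ 0)
    (r r' : G →* Matrix (Fin 2) (Fin 2) A)
    (hred : ∀ σ k l, residue A (r σ k l) = ψ (rbar σ k l))
    (hred' : ∀ σ k l, residue A (r' σ k l) = ψ (rbar σ k l))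
    (N : (Matrix (Fin 2) (Fin 2) A)ˣ)
    (hN : ∀ σ, (N : Matrix (Fin 2) (Fin 2) A) * r σ = r' σ * N)
    (h00 : r g₁ 0 0 = 0) (h10 : r g₁ 1 0 = 1) (h00' : r' g₁ 0 0 = 0) (h10' : r' g₁ 1 0 = 1)
    (hij : r g₂ i j = r' g₂ i j) : r = r' := by
  have hredm : ∀ σ, red (r σ) = ψ.mapMatrix (rbar σ) := by
    intro σ
    ext k l
    exact hred σ k l
  have hu : IsUnit ((r g₁ * r g₂ - r g₂ * r g₁) i j) :=
    isUnit_comm_entry_of_residual ψ rbar g₁ g₂ i j hc r hred
  refine rigid_unique r r' g₁ g₂ i j N hN h00 h10 h00' h10' hij (fun k l => ?_) hu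
  rw [← residue_eq_zero_iff, map_sub, hred, hred', sub_self]

end Representations

end Fermat.Agent.S53.H37
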