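import Fermat.Agent.S53.Defs
import Fermat.Agent.S53.H37.Gauge

/-!
# S53, gauge lemmas for matrix representations of `GQ` (wrappers over `Gauge.lean`)
-/

set_option autoImplicit false

namespace Fermat.Agent.S53.H37

open IsLocalRing Fermat.Agent.S53

/-- Conjugation preserves adic continuity. -/
theorem matCont_conjRep {A : Type} [CommRing A] [IsLocalRing A] (N : (M2 A)ˣ)
    {r : GQ →* M2 A} (hr : MatCont r) : MatCont (conjRep N r) := by
  intro n
  obtain ⟨L, hL, h⟩ := hr n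
  exact ⟨L, hL, fun σ hσ k l => conjRep_sub_one_entry_mem _ N r σ (h σ hσ) k l⟩

/-- **K1 for `GQ`.** Over a complete local ring `A`, every continuous lift `r` of a residual
matrix representation `rbar` in companion gauge (at `g₁`, with `[rbar g₁, rbar g₂] i j ≠ 0`)
is conjugate, by a matrix `N ≡ 1`, to a continuous lift `r'` of `rbar` in rigid form:
`r' g₁` has first column `(0,1)ᵀ` and `r' g₂ i j = β` (any prescribed lift `β` of
`rbar g₂ i j`). -/
theorem exists_rigid_lift {A : Type} [CommRing A] [IsLocalRing A]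
    [HenselianRing A (maximalIdeal A)]
    {k : Type} [Field k] (ψ : k →+* ResidueField A) (rbar : GQ →* M2 k) (g₁ g₂ : GQ)
    (i j : Fin 2) (h00 : rbar g₁ 0 0 = 0) (h10 : rbar g₁ 1 0 = 1)
    (hc : (rbar g₁ * rbar g₂ - rbar g₂ * rbar g₁) i j ≠ 0)
    (β : A) (hβ : residue A β = ψ (rbar g₂ i j))
    (r : GQ →* M2 A) (hr : MatCont r)
    (hred : ∀ σ k l, residue A (r σ k l) = ψ (rbar σ k l)) :
    ∃ (r' : GQ →* M2 A) (_ : MatCont r') (N : (M2 A)ˣ),
      (∀ σ, (N : M2 A) * r' σ = r σ * N) ∧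
      (∀ k l, (N : M2 A) k l - (1 : M2 A) k l ∈ maximalIdeal A) ∧
      (∀ σ k l, residue A (r' σ k l) = ψ (rbar σ k l)) ∧
      r' g₁ 0 0 = 0 ∧ r' g₁ 1 0 = 1 ∧ r' g₂ i j = β := by
  obtain ⟨N, hN1, hres, h1, h2, h3⟩ :=
    exists_rigid_conj_of_residual ψ rbar g₁ g₂ i j h00 h10 hc β hβ r hred
  exact ⟨conjRep N r, matCont_conjRep N hr, N, fun σ => mul_conjRep N r σ, hN1, hres, h1, h2, h3⟩

/-- `exists_rigid_lift` for complete local rings (the Henselian instance is automatic). -/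
theorem exists_rigid_lift_of_isAdicComplete {A : Type} [CommRing A] [IsLocalRing A]
    [IsAdicComplete (maximalIdeal A) A]
    {k : Type} [Field k] (ψ : k →+* ResidueField A) (rbar : GQ →* M2 k) (g₁ g₂ : GQ)
    (i j : Fin 2) (h00 : rbar g₁ 0 0 = 0) (h10 : rbar g₁ 1 0 = 1)
    (hc : (rbar g₁ * rbar g₂ - rbar g₂ * rbar g₁) i j ≠ 0)
    (β : A) (hβ : residue A β = ψ (rbar g₂ i j))
    (r : GQ →* M2 A) (hr : MatCont r)
    (hred : ∀ σ k l, residue A (r σ k l) = ψ (rbar σ k l)) :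
    ∃ (r' : GQ →* M2 A) (_ : MatCont r') (N : (M2 A)ˣ),
      (∀ σ, (N : M2 A) * r' σ = r σ * N) ∧
      (∀ k l, (N : M2 A) k l - (1 : M2 A) k l ∈ maximalIdeal A) ∧
      (∀ σ k l, residue A (r' σ k l) = ψ (rbar σ k l)) ∧
      r' g₁ 0 0 = 0 ∧ r' g₁ 1 0 = 1 ∧ r' g₂ i j = β :=
  exists_rigid_lift ψ rbar g₁ g₂ i j h00 h10 hc β hβ r hr hred

/-- **K2 for `GQ`.** Two conjugate lifts of `rbar` in rigid form are equal. -/
theorem rigid_lift_unique {A : Type} [CommRing A] [IsLocalRing A]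
    {k : Type} [Field k] (ψ : k →+* ResidueField A) (rbar : GQ →* M2 k) (g₁ g₂ : GQ)
    (i j : Fin 2) (hc : (rbar g₁ * rbar g₂ - rbar g₂ * rbar g₁) i j ≠ 0)
    (r r' : GQ →* M2 A)
    (hred : ∀ σ k l, residue A (r σ k l) = ψ (rbar σ k l))
    (hred' : ∀ σ k l, residue A (r' σ k l) = ψ (rbar σ k l))
    (N : (M2 A)ˣ) (hN : ∀ σ, (N : M2 A) * r σ = r' σ * N)
    (h00 : r g₁ 0 0 = 0) (h10 : r g₁ 1 0 = 1) (h00' : r' g₁ 0 0 = 0) (h10' : r' g₁ 1 0 = 1)
    (hij : r g₂ i j = r' g₂ i j) : r = r' :=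
  rigid_unique_of_residual ψ rbar g₁ g₂ i j hc r r' hred hred' N hN h00 h10 h00' h10' hij

end Fermat.Agent.S53.H37
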